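import Fermat.Agent.Density.BrauerNesbitt
import Mathlib.LinearAlgebra.Matrix.ToLin
import Mathlib.LinearAlgebra.Trace
import Mathlib.LinearAlgebra.Matrix.IsDiag
import Mathlib.Data.Real.Basic
import Mathlib.Tactic

/-!
# Bounded image of a semisimple two-dimensional representation mod `ℓ`

If seven eighths of the elements have their characteristic polynomial in a set of `M` elements, an
irreducible group has at most `2 M ^ 4` elements: an element `g` is determined by the traces of
`g * b` for `b` in a basis of the matrices made of elements of the group, and for half of the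
`g` all four traces lie among `M` values.  A diagonal group has at most two elements for each
characteristic polynomial.
-/

set_option autoImplicit false

noncomputable section

open Module Polynomial

namespace Fermat.Agent.DeligneSerre

section

variable {k : Type} [Field k]

private theorem card_good_le {G : Type*} [Fintype G] (P : G → Prop) [DecidablePred P]
    (h : (Nat.card {g : G // ¬ P g} : ℝ) ≤ (1 / 8 : ℝ) * Nat.card G) :
    8 * (Finset.univ.filter fun g => ¬ P g).card ≤ Fintype.card G := by
  rw [Nat.card_eq_fintype_card, Nat.card_eq_fintype_card, Fintype.card_subtype] at h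
  have h' : (8 : ℝ) * (Finset.univ.filter fun g => ¬ P g).card ≤ (Fintype.card G : ℝ) := by
    linarith
  exact_mod_cast h'

theorem card_le_of_span_eq_top {G : Subgroup (GL (Fin 2) k)} [Fintype G]
    (hspan : Submodule.span k (Set.range fun g : G => (g : GL (Fin 2) k).val) = ⊤)
    (T : Finset k) (P : G → Prop) [DecidablePred P]
    (hP : ∀ g, P g → (g : GL (Fin 2) k).val.trace ∈ T)
    (h : 8 * (Finset.univ.filter fun g => ¬ P g).card ≤ Fintype.card G) :
    Fintype.card G ≤ 2 * T.card ^ 4 := by
  classical
  obtain ⟨b, hb, hbspan, -⟩ :=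
    Submodule.exists_fun_fin_finrank_span_eq k (Set.range fun g : G => (g : GL (Fin 2) k).val)
  have hd : finrank k (Submodule.span k (Set.range fun g : G => (g : GL (Fin 2) k).val)) = 4 := by
    rw [hspan, finrank_top, Module.finrank_matrix, Fintype.card_fin, finrank_self]
  choose c hc using hb
  let S : Finset G := Finset.univ.filter fun g => ∀ i, P (g * c i)
  have hcompl : (Finset.univ \ S).card ≤ 4 * (Finset.univ.filter fun g => ¬ P g).card := by
    have hsub : Finset.univ \ S ⊆ Finset.univ.biUnion fun i =>
        Finset.univ.filter fun g => ¬ P (g * c i) := fun g hg => by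
      simpa [S] using hg
    refine (Finset.card_le_card hsub).trans (Finset.card_biUnion_le.trans ?_)
    refine (Finset.sum_le_card_nsmul _ _ (Finset.univ.filter fun g => ¬ P g).card fun i _ => ?_).trans
      (by rw [Finset.card_univ, Fintype.card_fin, hd, smul_eq_mul])
    refine le_of_eq (Finset.card_bij (fun g _ => g * c i) (fun g hg => ?_)
      (fun g _ g' _ e => mul_right_cancel e) fun g hg => ⟨g * (c i)⁻¹, ?_, ?_⟩)
    · simpa using hg
    · simpa using hg
    · simp
  have hS : Fintype.card G ≤ 2 * S.card := by
    have := Finset.card_sdiff_add_card_eq_card (Finset.subset_univ S)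
    rw [Finset.card_univ] at this
    omega
  have hinj : S.card ≤ T.card ^ 4 := by
    refine (Finset.card_le_card_of_injOn
      (fun (g : G) i => ((g * c i : G) : GL (Fin 2) k).val.trace)
      (t := Fintype.piFinset fun _ => T)
      (fun g hg => Fintype.mem_piFinset.mpr fun i => hP _
        ((Finset.mem_filter.mp (Finset.mem_coe.mp hg) : g ∈ Finset.univ ∧ ∀ i, P (g * c i)).2 i))
      fun g _ g' _ e => ?_).trans (le_of_eq ?_)
    · apply Subtype.ext
      apply Units.ext
      have key : ∀ X : Matrix (Fin 2) (Fin 2) k,
          ((g : GL (Fin 2) k).val * X).trace = ((g' : GL (Fin 2) k).val * X).trace := by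
        have hle : Submodule.span k (Set.range b) ≤ LinearMap.ker
            ((Matrix.traceLinearMap (Fin 2) k k).comp
              (LinearMap.mulLeft k (g : GL (Fin 2) k).val - LinearMap.mulLeft k (g' : GL (Fin 2) k).val)) := by
          rw [Submodule.span_le]
          rintro _ ⟨i, rfl⟩
          have := congrFun e i
          simp only [Subgroup.coe_mul, Units.val_mul, hc] at this
          simp [this]
        intro X
        have hX : X ∈ Submodule.span k (Set.range b) := by
          rw [hbspan, hspan]
          trivial
        have := hle hX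
        simpa [sub_eq_zero] using this
      exact Matrix.ext_iff_trace_mul_right.mpr key
    · rw [Fintype.card_piFinset, Finset.prod_const, Finset.card_univ, Fintype.card_fin, hd]
  omega

theorem card_le_of_isDiag [DecidableEq k] {G : Subgroup (GL (Fin 2) k)} [Fintype G]
    (hdiag : ∀ g ∈ G, (g : GL (Fin 2) k).val.IsDiag) (Y : Finset (k × k)) (P : G → Prop)
    [DecidablePred P]
    (hP : ∀ g, P g → ((g : GL (Fin 2) k).val.trace, (g : GL (Fin 2) k).val.det) ∈ Y)
    (h : 8 * (Finset.univ.filter fun g => ¬ P g).card ≤ Fintype.card G) :
    Fintype.card G ≤ 3 * Y.card := by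
  classical
  have h1 : (Finset.univ.filter P).card ≤ 2 * Y.card := by
    refine Finset.card_le_mul_card_image_of_maps_to (f := fun g : G =>
      ((g : GL (Fin 2) k).val.trace, (g : GL (Fin 2) k).val.det))
      (fun g hg => hP g (Finset.mem_filter.mp hg).2) 2 fun y _ => ?_
    let q : k[X] := Polynomial.X ^ 2 - C y.1 * Polynomial.X + C y.2
    have hq : q.natDegree = 2 := by
      simp only [q]
      compute_degree!
    have hq0 : q ≠ 0 := fun e => by simp [e] at hq
    refine le_trans (Finset.card_le_card_of_injOn (fun g : G => (g : GL (Fin 2) k).val 0 0)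
      (t := q.roots.toFinset) (fun g hg => ?_) fun g hg g' hg' e => ?_) ?_
    · obtain ⟨-, rfl⟩ := Finset.mem_filter.mp hg
      have h01 : (g : GL (Fin 2) k).val 0 1 = 0 := hdiag g g.2 (by decide)
      rw [Finset.mem_coe, Multiset.mem_toFinset, mem_roots hq0, IsRoot.def]
      simp [q, Matrix.trace_fin_two, Matrix.det_fin_two, h01]
      ring
    · have ht := congrArg Prod.fst ((Finset.mem_filter.mp hg).2.trans (Finset.mem_filter.mp hg').2.symm)
      simp only [Matrix.trace_fin_two, e, add_right_inj] at ht
      refine Subtype.ext (Units.ext (Matrix.ext fun i j => ?_))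
      fin_cases i <;> fin_cases j
      · exact e
      · exact (hdiag g g.2 (by decide)).trans (hdiag g' g'.2 (by decide)).symm
      · exact (hdiag g g.2 (by decide)).trans (hdiag g' g'.2 (by decide)).symm
      · exact ht
    · exact (Multiset.toFinset_card_le _).trans ((card_roots' q).trans hq.le)
  have := Finset.card_filter_add_card_filter_not (s := (Finset.univ : Finset G)) P
  rw [Finset.card_univ] at this
  omega

end

/-- A finite semisimple subgroup of `GL₂(k)` of which seven eighths have at most `M`
characteristic polynomials has order prime to `ℓ` and bounded in terms of `M`, for `ℓ` large. -/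
theorem card_le_of_few_charpoly (M : ℕ) :
    ∃ B : ℕ, ∀ (k : Type) [Field k] [IsAlgClosed k] (ℓ : ℕ) [CharP k ℓ], ℓ.Prime → B < ℓ →
      ∀ (G : Subgroup (GL (Fin 2) k)), Finite G →
        ((∀ v : Fin 2 → k, v ≠ 0 → ∃ g ∈ G, ∀ c : k,
            ((g : GL (Fin 2) k) : Matrix (Fin 2) (Fin 2) k).mulVec v ≠ c • v) ∨
          ∀ g ∈ G, ((g : GL (Fin 2) k) : Matrix (Fin 2) (Fin 2) k).IsDiag) →
        ∀ (Y : Finset (k × k)), Y.card ≤ M →
          (Nat.card {g : G // (((g : GL (Fin 2) k) : Matrix (Fin 2) (Fin 2) k).trace,
              ((g : GL (Fin 2) k) : Matrix (Fin 2) (Fin 2) k).det) ∉ Y} : ℝ) ≤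
            (1 / 8 : ℝ) * Nat.card G →
          Nat.card G ≤ B ∧ ¬ ℓ ∣ Nat.card G := by
  refine ⟨2 * M ^ 4 + 3 * M, fun k _ _ ℓ _ hℓ hB G hG hirr Y hY hbad => ?_⟩
  classical
  have := Fintype.ofFinite G
  let P : G → Prop := fun g =>
    ((g : GL (Fin 2) k).val.trace, (g : GL (Fin 2) k).val.det) ∈ Y
  have hbad' := card_good_le P hbad
  have hcard : Fintype.card G ≤ 2 * M ^ 4 + 3 * M := by
    rcases hirr with hirr | hdiag
    · let r : G →* Module.End k (Fin 2 → k) :=
        ((Matrix.toLinAlgEquiv' (R := k) (n := Fin 2) : Matrix (Fin 2) (Fin 2) k →*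
          Module.End k (Fin 2 → k))).comp ((Units.coeHom _).comp G.subtype)
      have hspan := Density.span_range_eq_top_of_irreducible r fun W hW => by
        by_contra hne
        push Not at hne
        obtain ⟨v, hv, hv0⟩ := Submodule.exists_mem_ne_zero_of_ne_bot hne.1
        obtain ⟨g, hg, hgv⟩ := hirr v hv0
        have hW1 : W = k ∙ v := by
          refine (Submodule.eq_of_le_of_finrank_le ((Submodule.span_singleton_le_iff_mem _ _).mpr hv) ?_).symm
          have := Submodule.finrank_lt hne.2
          rw [Module.finrank_fin_fun] at this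
          rw [finrank_span_singleton hv0]
          omega
        have := hW ⟨g, hg⟩ v hv
        rw [hW1, Submodule.mem_span_singleton] at this
        obtain ⟨c, hc⟩ := this
        exact hgv c (by simpa [r] using hc.symm)
      have hspan' : Submodule.span k (Set.range fun g : G => (g : GL (Fin 2) k).val) = ⊤ := by
        let e := (Matrix.toLinAlgEquiv' (R := k) (n := Fin 2)).toLinearEquiv
        apply Submodule.map_injective_of_injective (f := e.toLinearMap) e.injective
        rw [Submodule.map_span, ← Set.range_comp, Submodule.map_top, LinearEquiv.range]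
        exact hspan
      have h1 := card_le_of_span_eq_top hspan' (Y.image Prod.fst) P
        (fun g hg => Finset.mem_image_of_mem Prod.fst hg) hbad'
      have h2 : (Y.image Prod.fst).card ^ 4 ≤ M ^ 4 :=
        Nat.pow_le_pow_left (Finset.card_image_le.trans hY) 4
      omega
    · have := card_le_of_isDiag hdiag Y P (fun _ hg => hg) hbad'
      omega
  rw [Nat.card_eq_fintype_card]
  exact ⟨hcard, fun hdvd => absurd (Nat.le_of_dvd Fintype.card_pos hdvd) (by omega)⟩

end Fermat.Agent.DeligneSerre
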