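import Fermat.Agent.EC.Red.ResidueQbar
import Mathlib.LinearAlgebra.Matrix.Charpoly.Coeff
import Mathlib.LinearAlgebra.Matrix.SchurComplement
import Mathlib.LinearAlgebra.Matrix.ToLin
import Mathlib.LinearAlgebra.Matrix.Permutation
import Mathlib.LinearAlgebra.Dimension.Free
import Mathlib.Analysis.Complex.Polynomial.Basic
import Mathlib.Tactic

/-!
# Lifting a two-dimensional representation of order prime to `ℓ` to characteristic zero

`ρ` is a direct factor of the permutation representation on `G × Fin 2`: with
`ι v (h, i) = (ρ h⁻¹ v) i` and `π f = |G|⁻¹ ∑ ρ h (f h)` one has `π ι = 1`.  The equivariant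
idempotent `ι π` lifts to an equivariant idempotent matrix over `A`, whose image over `ℂ` has
dimension two and carries the lift.
-/

set_option autoImplicit false

noncomputable section

open Polynomial Matrix IsLocalRing

namespace Fermat.Agent.DeligneSerre

section Idempotent

variable (A : ValuationSubring ℂ) {n : Type} [Fintype n] [DecidableEq n]

private theorem isCoprime_linear {lam mu : A} (h : IsUnit (mu - lam)) :
    IsCoprime (Polynomial.X - C lam) (Polynomial.X - C mu) := by
  obtain ⟨w, hw⟩ := h.exists_left_inv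
  exact ⟨C w, -C w, by rw [← C_1, ← hw, map_mul, map_sub]; ring⟩

private theorem isCoprime_prods (s t : Multiset A) (h : ∀ x ∈ s, ∀ y ∈ t, IsUnit (y - x)) :
    IsCoprime (s.map fun x => Polynomial.X - C x).prod
      (t.map fun x => Polynomial.X - C x).prod := by
  induction s using Multiset.induction with
  | empty => simpa using isCoprime_one_left
  | cons x s ih =>
    rw [Multiset.map_cons, Multiset.prod_cons]
    refine IsCoprime.mul_left ?_ (ih fun z hz => h z (Multiset.mem_cons_of_mem hz))
    clear ih
    induction t using Multiset.induction with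
    | empty => simpa using isCoprime_one_right
    | cons y t iht =>
      rw [Multiset.map_cons, Multiset.prod_cons]
      exact IsCoprime.mul_right
        (isCoprime_linear A (h x (Multiset.mem_cons_self _ _) y (Multiset.mem_cons_self _ _)))
        (iht fun z hz w hw => h z hz w (Multiset.mem_cons_of_mem hw))

private theorem exists_roots_charpoly (X₀ : Matrix n n A) :
    ∃ s : Multiset A, X₀.charpoly = (s.map fun x => Polynomial.X - C x).prod := by
  let r := (X₀.charpoly.map A.subtype).roots
  have hmem : ∀ z ∈ r, z ∈ A := fun z hz => by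
    refine EC.mem_of_root_monic A (Matrix.charpoly_monic X₀) ?_
    have := (mem_roots'.mp hz).2
    rw [IsRoot.def, eval_map] at this
    exact this
  refine ⟨r.pmap (fun z hz => (⟨z, hz⟩ : A)) hmem, ?_⟩
  apply Polynomial.map_injective A.subtype Subtype.val_injective
  rw [Polynomial.map_multiset_prod, Multiset.map_map]
  conv_lhs => rw [((IsAlgClosed.splits _).eq_prod_roots_of_monic
    ((Matrix.charpoly_monic X₀).map A.subtype))]
  congr 1
  simp [r, Multiset.map_pmap, Multiset.pmap_eq_map]

/-- An idempotent over the residue field lifts to an idempotent in the algebra generated by any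
lift. -/
theorem exists_idempotent_lift (X₀ : Matrix n n A)
    (h : (residue A).mapMatrix X₀ * (residue A).mapMatrix X₀ = (residue A).mapMatrix X₀) :
    ∃ f : A[X], aeval X₀ f * aeval X₀ f = aeval X₀ f ∧
      (residue A).mapMatrix (aeval X₀ f) = (residue A).mapMatrix X₀ := by
  classical
  obtain ⟨s, hs⟩ := exists_roots_charpoly A X₀
  let s₀ := s.filter fun x => residue A x = 0
  let s₁ := s.filter fun x => ¬ residue A x = 0
  let P₀ : A[X] := Polynomial.X * (s₀.map fun x => Polynomial.X - C x).prod
  let P₁ : A[X] := (s₁.map fun x => Polynomial.X - C x).prod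
  have hs01 : P₀ * P₁ = Polynomial.X * X₀.charpoly := by
    simp only [P₀, P₁, s₀, s₁]
    rw [mul_assoc, ← Multiset.prod_add, ← Multiset.map_add, Multiset.filter_add_not, hs]
  have hcop : IsCoprime P₀ P₁ := by
    have h0 := isCoprime_prods A (0 ::ₘ s₀) s₁ fun x hx y hy => by
      rw [← residue_ne_zero_iff_isUnit, map_sub]
      have hy' := (Multiset.mem_filter.mp hy).2
      rcases Multiset.mem_cons.mp hx with rfl | hx
      · simpa using hy'
      · simpa [(Multiset.mem_filter.mp hx).2] using hy'
    simpa [P₀, P₁] using h0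
  obtain ⟨u, v, huv⟩ := hcop
  let f : A[X] := u * P₀
  have hCH : aeval X₀ (P₀ * P₁) = 0 := by
    rw [hs01, map_mul, Matrix.aeval_self_charpoly, mul_zero]
  have hf : aeval X₀ f * (1 - aeval X₀ f) = 0 := by
    have : f * (1 - f) = u * v * (P₀ * P₁) := by
      simp only [f]
      linear_combination (-(u * P₀)) * huv
    rw [← map_one (aeval (R := A) X₀), ← map_sub, ← map_mul, this, map_mul, hCH, mul_zero]
  have hidem : aeval X₀ f * aeval X₀ f = aeval X₀ f := by
    rw [mul_sub, mul_one, sub_eq_zero] at hf
    exact hf.symm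
  refine ⟨f, hidem, ?_⟩
  set E := (residue A).mapMatrix X₀
  set G := (residue A).mapMatrix (aeval X₀ f)
  let φ : A[X] →+* Matrix n n (ResidueField A) :=
    (residue A).mapMatrix.comp (aeval (R := A) X₀).toRingHom
  have hφX : φ Polynomial.X = E := by simp [φ, E]
  have hlin : ∀ x ∈ s₀, φ (Polynomial.X - C x) = E := fun x hx => by
    rw [map_sub, hφX]
    simp [φ, Matrix.algebraMap_eq_diagonal, RingHom.mapMatrix_apply, Matrix.diagonal_map,
      (Multiset.mem_filter.mp hx).2]
  have hpow : φ P₀ = E := by
    simp only [P₀, map_mul, hφX]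
    have key : ∀ t : Multiset A, (∀ x ∈ t, φ (Polynomial.X - C x) = E) →
        E * φ (t.map fun x => Polynomial.X - C x).prod = E := by
      intro t
      induction t using Multiset.induction with
      | empty => intro; simp
      | cons x t ih =>
        intro ht
        rw [Multiset.map_cons, Multiset.prod_cons, map_mul, ht x (Multiset.mem_cons_self _ _),
          ← mul_assoc, h, ih fun y hy => ht y (Multiset.mem_cons_of_mem hy)]
    exact key s₀ hlin
  have h1 : G * E = G := by
    show φ (u * P₀) * E = φ (u * P₀)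
    rw [map_mul, hpow, mul_assoc, h]
  have h2 : E * G = E := by
    have : E * φ P₁ = 0 := by
      rw [← hpow, ← map_mul]
      simp [φ, hCH]
    have h3 : E * φ (1 - u * P₀) = 0 := by
      rw [show 1 - u * P₀ = P₁ * v by linear_combination (-1 : A[X]) * huv, map_mul, ← mul_assoc,
        this, zero_mul]
    rw [map_sub, map_one, mul_sub, mul_one, sub_eq_zero] at h3
    exact h3.symm
  have hcomm : G * E = E * G := by
    show φ (u * P₀) * E = E * φ (u * P₀)
    rw [← hφX, ← map_mul, ← map_mul, mul_comm]
  rw [← h1, hcomm, h2]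

end Idempotent

section Split

variable {K : Type} [Field K] {n : Type} [Fintype n] [DecidableEq n]

private theorem det_one_add_conj {m : Type} [Fintype m] [DecidableEq m] (inc : Matrix n m K)
    (pr : Matrix m n K) (T : Matrix n n K) :
    (1 + (T - 1) * (inc * pr)).det = (1 + (pr * T * inc - pr * inc)).det := by
  rw [← Matrix.mul_assoc, Matrix.det_one_add_mul_comm, ← Matrix.mul_assoc, Matrix.mul_sub,
    Matrix.mul_one, Matrix.sub_mul]

private theorem poly_det_idempotent {m : Type} [Fintype m] [DecidableEq m] (inc : Matrix n m K)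
    (pr : Matrix m n K) (h : pr * inc = 1) :
    (1 + (Polynomial.X - 1 : K[X]) • (C : K →+* K[X]).mapMatrix (inc * pr)).det =
      Polynomial.X ^ Fintype.card m := by
  rw [show (C : K →+* K[X]).mapMatrix (inc * pr) = inc.map C * pr.map C from Matrix.map_mul,
    ← Matrix.smul_mul, Matrix.det_one_add_mul_comm, Matrix.mul_smul, ← Matrix.map_mul, h,
    Matrix.map_one C (map_zero _) (map_one _)]
  rw [show (1 : Matrix m m K[X]) + (Polynomial.X - 1 : K[X]) • 1 = (Polynomial.X : K[X]) • 1 from by
    rw [sub_smul, one_smul]; abel, Matrix.det_smul, Matrix.det_one, mul_one]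

private theorem exists_split (E : Matrix n n K) (h : E * E = E) :
    ∃ (d : ℕ) (inc : Matrix n (Fin d) K) (pr : Matrix (Fin d) n K),
      pr * inc = 1 ∧ inc * pr = E := by
  let e := Matrix.toLin' E
  have he : ∀ x, e (e x) = e x := fun x => by
    rw [← LinearMap.comp_apply, ← Matrix.toLin'_mul, h]
  let b := Module.finBasis K (LinearMap.range e)
  let i : (Fin _ → K) →ₗ[K] (n → K) := (LinearMap.range e).subtype ∘ₗ b.equivFun.symm.toLinearMap
  let p : (n → K) →ₗ[K] (Fin _ → K) := b.equivFun.toLinearMap ∘ₗ e.rangeRestrict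
  refine ⟨_, LinearMap.toMatrix' i, LinearMap.toMatrix' p, ?_, ?_⟩
  · rw [← LinearMap.toMatrix'_comp]
    have : p ∘ₗ i = LinearMap.id := LinearMap.ext fun x => by
      obtain ⟨y, hy⟩ := (b.equivFun.symm x).2
      have : e.rangeRestrict (b.equivFun.symm x : n → K) = b.equivFun.symm x := by
        apply Subtype.ext
        show e _ = _
        rw [← hy, he]
      show b.equivFun (e.rangeRestrict (b.equivFun.symm x : n → K)) = x
      rw [this, LinearEquiv.apply_symm_apply]
    rw [this, LinearMap.toMatrix'_id]
  · rw [← LinearMap.toMatrix'_comp]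
    have : i ∘ₗ p = e := LinearMap.ext fun x => by simp [p, i]
    rw [this, LinearMap.toMatrix'_toLin']

end Split

section Perm

variable {G : Type} [Group G] [Fintype G] [DecidableEq G] (R : Type) [CommRing R]

/-- The permutation matrix of `g` on `G × Fin 2`. -/
def permMat (g : G) : Matrix (G × Fin 2) (G × Fin 2) R :=
  Matrix.of fun x y => if y = (g⁻¹ * x.1, x.2) then 1 else 0

omit [Fintype G] in
theorem permMat_one : permMat R (1 : G) = 1 := by
  ext x y
  simp [permMat, Matrix.one_apply, eq_comm]

theorem permMat_mul_apply {m : Type} (g : G) (T : Matrix (G × Fin 2) m R) (x : G × Fin 2) (y : m) :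
    (permMat R g * T) x y = T (g⁻¹ * x.1, x.2) y := by
  simp [Matrix.mul_apply, permMat]

theorem permMat_mul (g h : G) : permMat R (g * h) = permMat R g * permMat R h := by
  ext x y
  rw [permMat_mul_apply]
  simp [permMat, mul_assoc]

theorem map_permMat {S : Type} [CommRing S] (φ : R →+* S) (g : G) :
    φ.mapMatrix (permMat R g) = permMat S g := by
  ext x y
  simp only [RingHom.mapMatrix_apply, Matrix.map_apply, permMat, Matrix.of_apply]
  split_ifs <;> simp

theorem mul_permMat_apply {m : Type} (g : G) (T : Matrix m (G × Fin 2) R) (x : m) (y : G × Fin 2) :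
    (T * permMat R g) x y = T x (g * y.1, y.2) := by
  have : ∀ z : G × Fin 2, (y = (g⁻¹ * z.1, z.2)) ↔ z = (g * y.1, y.2) := fun z => by
    constructor <;> rintro rfl <;> simp
  simp [Matrix.mul_apply, permMat, this]

end Perm

/-- Lifting to `ℂ` along a valuation subring. -/
theorem exists_lift_of_not_dvd_card (A : ValuationSubring ℂ) {G : Type} [Group G] [Finite G]
    (hG : (Nat.card G : IsLocalRing.ResidueField A) ≠ 0)
    (ρ : G →* GL (Fin 2) (IsLocalRing.ResidueField A)) :
    ∃ R : G →* GL (Fin 2) ℂ, ∀ g : G,
      ∃ (t d : A), ((R g : GL (Fin 2) ℂ) : Matrix (Fin 2) (Fin 2) ℂ).trace = (t : ℂ) ∧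
        ((R g : GL (Fin 2) ℂ) : Matrix (Fin 2) (Fin 2) ℂ).det = (d : ℂ) ∧
        IsLocalRing.residue A t = (ρ g).val.trace ∧
        IsLocalRing.residue A d = (ρ g).val.det := by
  classical
  have := Fintype.ofFinite G
  rw [Nat.card_eq_fintype_card] at hG
  set c : ResidueField A := (Fintype.card G : ResidueField A)⁻¹
  let inc₀ : Matrix (G × Fin 2) (Fin 2) (ResidueField A) :=
    Matrix.of fun x j => (ρ x.1⁻¹).val x.2 j
  let pr₀ : Matrix (Fin 2) (G × Fin 2) (ResidueField A) :=
    Matrix.of fun i y => c * (ρ y.1).val i y.2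
  have hpi : pr₀ * inc₀ = 1 := by
    ext i j
    simp only [Matrix.mul_apply, Fintype.sum_prod_type, pr₀, inc₀, Matrix.of_apply]
    calc ∑ h, ∑ l, c * (ρ h).val i l * (ρ h⁻¹).val l j
        = ∑ _h : G, c * (1 : Matrix (Fin 2) (Fin 2) (ResidueField A)) i j := by
          refine Finset.sum_congr rfl fun h _ => ?_
          rw [show (1 : Matrix (Fin 2) (Fin 2) (ResidueField A)) = (ρ h).val * (ρ h⁻¹).val by
            rw [← Units.val_mul, ← map_mul, mul_inv_cancel, map_one, Units.val_one],
            Matrix.mul_apply, Finset.mul_sum]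
          exact Finset.sum_congr rfl fun l _ => mul_assoc _ _ _
      _ = _ := by
          rw [Finset.sum_const, Finset.card_univ, nsmul_eq_mul, ← mul_assoc, mul_inv_cancel₀ hG,
            one_mul]
  have hequiv : ∀ g, permMat (ResidueField A) g * inc₀ = inc₀ * (ρ g).val := fun g => by
    ext x j
    rw [permMat_mul_apply]
    simp only [inc₀, Matrix.of_apply]
    rw [_root_.mul_inv_rev, inv_inv, map_mul, Units.val_mul, Matrix.mul_apply, Matrix.mul_apply]
    rfl
  let lift : ResidueField A → A := fun z => (residue_surjective z).choose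
  have hlift : ∀ z, residue A (lift z) = z := fun z => (residue_surjective z).choose_spec
  let cA : G → Matrix (Fin 2) (Fin 2) A := fun h => ((ρ h).val.map fun z => lift (c * z))
  let X₀ : Matrix (G × Fin 2) (G × Fin 2) A := Matrix.of fun x y => cA (x.1⁻¹ * y.1) x.2 y.2
  have hX₀ : (residue A).mapMatrix X₀ = inc₀ * pr₀ := by
    ext x y
    simp only [RingHom.mapMatrix_apply, Matrix.map_apply, X₀, cA, Matrix.of_apply, hlift,
      Matrix.mul_apply, inc₀, pr₀]
    rw [map_mul, Units.val_mul, Matrix.mul_apply, Finset.mul_sum]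
    exact Finset.sum_congr rfl fun l _ => by ring
  obtain ⟨f, hf, hfres⟩ := exists_idempotent_lift A X₀ (by
    rw [hX₀, Matrix.mul_assoc, ← Matrix.mul_assoc pr₀, hpi, Matrix.one_mul])
  rw [hX₀] at hfres
  set EA := aeval X₀ f
  have hcomm : ∀ g, permMat A g * EA = EA * permMat A g := fun g => by
    refine Algebra.commute_of_mem_adjoin_singleton_of_commute (aeval_mem_adjoin_singleton A X₀) ?_
    ext x y
    rw [permMat_mul_apply, mul_permMat_apply]
    simp only [X₀, Matrix.of_apply]
    rw [_root_.mul_inv_rev, inv_inv, mul_assoc]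
  obtain ⟨d, inc, pr, hpr, hsplit⟩ := exists_split (A.subtype.mapMatrix EA) (by rw [← map_mul, hf])
  -- the dimension is two
  obtain rfl : d = 2 := by
    let Q : A[X] := (1 + (Polynomial.X - 1 : A[X]) • (C : A →+* A[X]).mapMatrix EA).det
    have hQ : ∀ {S : Type} [CommRing S] (φ : A →+* S), Q.map φ =
        (1 + (Polynomial.X - 1 : S[X]) • (C : S →+* S[X]).mapMatrix (φ.mapMatrix EA)).det := by
      intro S _ φ
      rw [← coe_mapRingHom, RingHom.map_det]
      congr 1
      ext i j
      simp only [RingHom.mapMatrix_apply, Matrix.map_apply, Matrix.add_apply, Matrix.smul_apply,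
        smul_eq_mul, coe_mapRingHom, Polynomial.map_add, Polynomial.map_mul, Polynomial.map_sub,
        Polynomial.map_X, Polynomial.map_one, Polynomial.map_C, Matrix.one_apply]
      split_ifs <;> simp
    have h1 : Q = Polynomial.X ^ d := by
      apply Polynomial.map_injective A.subtype Subtype.val_injective
      rw [hQ, ← hsplit, poly_det_idempotent inc pr hpr, Fintype.card_fin, Polynomial.map_pow,
        Polynomial.map_X]
    have h2 := hQ (residue A)
    rw [h1, hfres, poly_det_idempotent inc₀ pr₀ hpi, Fintype.card_fin, Polynomial.map_pow,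
      Polynomial.map_X] at h2
    simpa using congrArg Polynomial.natDegree h2
  have hE : A.subtype.mapMatrix EA * inc = inc := by
    rw [← hsplit, Matrix.mul_assoc, hpr, Matrix.mul_one]
  have hcommC : ∀ g, permMat ℂ g * A.subtype.mapMatrix EA =
      A.subtype.mapMatrix EA * permMat ℂ g := fun g => by
    rw [← map_permMat A A.subtype g, ← map_mul, ← map_mul, hcomm]
  let M : G → Matrix (Fin 2) (Fin 2) ℂ := fun g => pr * permMat ℂ g * inc
  have hMone : M 1 = 1 := by simp [M, permMat_one, hpr]
  have hMmul : ∀ g h, M (g * h) = M g * M h := fun g h => by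
    calc M (g * h) = pr * (permMat ℂ g * (permMat ℂ h * (A.subtype.mapMatrix EA * inc))) := by
          rw [hE, ← Matrix.mul_assoc (permMat ℂ g), ← permMat_mul, ← Matrix.mul_assoc]
      _ = pr * (permMat ℂ g * ((inc * pr) * (permMat ℂ h * inc))) := by
          rw [← Matrix.mul_assoc (permMat ℂ h), hcommC, hsplit, Matrix.mul_assoc]
      _ = M g * M h := by simp only [M, Matrix.mul_assoc]
  let MH : G →* Matrix (Fin 2) (Fin 2) ℂ := ⟨⟨M, hMone⟩, hMmul⟩
  refine ⟨MH.toHomUnits, fun g => ?_⟩
  refine ⟨(permMat A g * EA).trace, (1 + (permMat A g - 1) * EA).det, ?_, ?_, ?_, ?_⟩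
  · show (pr * permMat ℂ g * inc).trace = A.subtype (permMat A g * EA).trace
    rw [AddMonoidHom.map_trace, Matrix.mul_assoc, Matrix.trace_mul_comm, Matrix.mul_assoc]
    congr 1
    rw [hsplit, ← map_permMat A A.subtype g]
    exact (Matrix.map_mul (f := A.subtype)).symm
  · show (pr * permMat ℂ g * inc).det = A.subtype (1 + (permMat A g - 1) * EA).det
    rw [RingHom.map_det, map_add, map_mul, map_sub, map_one, map_permMat, ← hsplit,
      det_one_add_conj, hpr, add_sub_cancel]
  · rw [AddMonoidHom.map_trace]
    show ((residue A).mapMatrix (permMat A g * EA)).trace = _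
    rw [map_mul, map_permMat, hfres, ← Matrix.mul_assoc, hequiv, Matrix.trace_mul_comm,
      ← Matrix.mul_assoc, hpi, Matrix.one_mul]
  · rw [RingHom.map_det, map_add, map_mul, map_sub, map_one, map_permMat, hfres, det_one_add_conj,
      Matrix.mul_assoc pr₀, hequiv, ← Matrix.mul_assoc, hpi, Matrix.one_mul, add_sub_cancel]

end Fermat.Agent.DeligneSerre
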